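/-
Programme T1A (S19), brick R-e COORD-INJ (helper23), part 1: the abstract core.

`M` is a two-chart module over a two-chart ring `(A, R0, R1, R01)` and `π : A`.

* `exists_bound_torsion`  : in a noetherian module the `π`-power torsion is killed by one power.
* `GenMod p x`            : the element `x` generates the `R`-module `N` modulo `p`.
* `exists_section_congr`  : if the `π`-power torsion of `H¹(M)` is killed by `π ^ C`, every
  "section modulo `π ^ (C + 1)`" is congruent modulo `π` to an honest global section.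
* `exists_mul_add_eq_one` : for an invertible module, the value `φ x` of a generator of the dual
  modulo `p` on a generator modulo `p` is a unit modulo `p`.
* `nonempty_iso_unit`     : a line `M` over a local base `A` (maximal ideal `(π)`) with
  `H⁰(O) = A`, having a section and a cosection which generate modulo `π`, is trivial.
-/
import Mathlib
import Fermat.Agent.Jac.Core
import Fermat.Agent.Jac.LineOps39.Dual

set_option autoImplicit false
set_option linter.unusedSectionVars false
set_option linter.style.haveILetI false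

universe u

open TensorProduct

namespace Fermat.Agent.T1.CoordInj23

open Fermat.Agent.Jac Fermat.Agent.Jac.LineOps39

/-! ### Bounded torsion -/

/-- In a noetherian module the `π`-power torsion is killed by a single power of `π`. -/
theorem exists_bound_torsion {O N : Type*} [CommRing O] [AddCommGroup N] [Module O N]
    [IsNoetherian O N] (π : O) :
    ∃ C : ℕ, ∀ (x : N) (k : ℕ), π ^ k • x = 0 → π ^ C • x = 0 := by
  let K : ℕ →o Submodule O N :=
    { toFun := fun k => LinearMap.ker (LinearMap.lsmul O N (π ^ k))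
      monotone' := by
        intro k k' hkk' x hx
        rw [LinearMap.mem_ker, LinearMap.lsmul_apply] at hx ⊢
        obtain ⟨j, rfl⟩ := Nat.exists_eq_add_of_le hkk'
        rw [pow_add, mul_comm, mul_smul, hx, smul_zero] }
  obtain ⟨C, hC⟩ := monotone_stabilizes_iff_noetherian.2 (inferInstance : IsNoetherian O N) K
  refine ⟨C, fun x k hk => ?_⟩
  have h1 : x ∈ K k := by
    show x ∈ LinearMap.ker (LinearMap.lsmul O N (π ^ k))
    rw [LinearMap.mem_ker, LinearMap.lsmul_apply, hk]
  have h2 : x ∈ K (max k C) := K.monotone (le_max_left k C) h1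
  rw [← hC (max k C) (le_max_right k C)] at h2
  have h3 : x ∈ LinearMap.ker (LinearMap.lsmul O N (π ^ C)) := h2
  rwa [LinearMap.mem_ker, LinearMap.lsmul_apply] at h3

/-! ### Generators modulo an element -/

section GenMod

variable {R N : Type*} [CommRing R] [AddCommGroup N] [Module R N]

/-- `x` generates the `R`-module `N` modulo `p`. -/
def GenMod (p : R) (x : N) : Prop :=
  ∀ m : N, ∃ (r : R) (m' : N), m = r • x + p • m'

theorem GenMod.of_mul {p q : R} {x : N} (h : GenMod (p * q) x) : GenMod p x := by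
  intro m
  obtain ⟨r, m', rfl⟩ := h m
  exact ⟨r, q • m', by rw [mul_smul]⟩

theorem GenMod.of_pow_succ {p : R} {x : N} (n : ℕ) (h : GenMod (p ^ (n + 1)) x) : GenMod p x := by
  rw [pow_succ'] at h
  exact h.of_mul

theorem GenMod.sub_smul {p : R} {x : N} (h : GenMod p x) (w : N) : GenMod p (x - p • w) := by
  intro m
  obtain ⟨r, m', rfl⟩ := h m
  refine ⟨r, r • w + m', ?_⟩
  rw [smul_sub, smul_add, smul_comm p r w]
  abel

/-- For an invertible module `N`: if `x` generates `N` modulo `p` and `φ` generates the dual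
modulo `p`, then `φ x` is a unit modulo `p`. -/
theorem exists_mul_add_eq_one [Module.Invertible R N] (p : R) (x : N) (φ : Module.Dual R N)
    (hx : GenMod p x) (hφ : GenMod p φ) : ∃ r g : R, r * φ x + g * p = 1 := by
  have key : ∀ z : Module.Dual R N ⊗[R] N, contractLeft R N z ∈ Ideal.span {φ x, p} := by
    intro z
    induction z using TensorProduct.induction_on with
    | zero => simp
    | tmul ψ m =>
      obtain ⟨r', ψ', rfl⟩ := hφ ψ
      obtain ⟨r, m', rfl⟩ := hx m
      rw [contractLeft_apply]
      have e : (r' • φ + p • ψ') (r • x + p • m') =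
          (r' * r) * φ x + (r' * φ m' + ψ' (r • x + p • m')) * p := by
        simp only [LinearMap.add_apply, LinearMap.smul_apply, map_add, map_smul, smul_eq_mul]
        ring
      rw [e]
      exact Ideal.mem_span_pair.2 ⟨_, _, rfl⟩
    | add a b ha hb =>
      rw [map_add]
      exact Ideal.add_mem _ ha hb
  obtain ⟨z, hz⟩ := (Module.Invertible.bijective (R := R) (M := N)).2 1
  have h1 := key z
  rw [hz] at h1
  exact Ideal.mem_span_pair.1 h1

end GenMod

/-! ### Sections modulo `π ^ (C + 1)` -/

section Section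

variable {A R0 R1 R01 : Type u} [CommRing A] [CommRing R0] [CommRing R1] [CommRing R01]
  [Algebra A R0] [Algebra A R1] [Algebra A R01] [Algebra R0 R01] [Algebra R1 R01]
  [IsScalarTower A R0 R01] [IsScalarTower A R1 R01]

/-- If the `π`-power torsion of `H¹(M)` is killed by `π ^ C`, then a pair `(e0, e1)` which is a
section modulo `π ^ (C + 1)` is congruent modulo `π` to a global section of `M`. -/
theorem exists_section_congr (M : QC2 A R0 R1 R01) (π : A) (C : ℕ)
    (hC : ∀ (x : M.H1) (k : ℕ), π ^ k • x = 0 → π ^ C • x = 0)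
    (e0 : M.N0) (e1 : M.N1) (z : M.N01) (hz : M.r0 e0 - M.r1 e1 = π ^ (C + 1) • z) :
    ∃ (w0 : M.N0) (w1 : M.N1), M.r0 (e0 - π • w0) = M.r1 (e1 - π • w1) := by
  have h1 : π ^ (C + 1) • (Submodule.Quotient.mk z : M.H1) = 0 := by
    rw [← Submodule.Quotient.mk_smul, ← hz, Submodule.Quotient.mk_eq_zero]
    exact ⟨(e0, e1), d_apply M (e0, e1)⟩
  have h2 := hC _ _ h1
  rw [← Submodule.Quotient.mk_smul, Submodule.Quotient.mk_eq_zero] at h2
  obtain ⟨w, hw⟩ := h2
  rw [d_apply] at hw
  refine ⟨w.1, w.2, ?_⟩
  have hπ0 : M.r0 (π • w.1) = π • M.r0 w.1 := by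
    rw [← algebraMap_smul R0 π w.1, map_smul, algebraMap_smul]
  have hπ1 : M.r1 (π • w.2) = π • M.r1 w.2 := by
    rw [← algebraMap_smul R1 π w.2, map_smul, algebraMap_smul]
  rw [map_sub, map_sub, hπ0, hπ1, ← sub_eq_zero]
  have : M.r0 e0 - π • M.r0 w.1 - (M.r1 e1 - π • M.r1 w.2) =
      (M.r0 e0 - M.r1 e1) - π • (M.r0 w.1 - M.r1 w.2) := by
    rw [smul_sub]; abel
  rw [this, hw, hz, pow_succ', mul_smul, sub_self]

end Section

/-! ### The pairing argument -/

section Pairing

variable {A R0 R1 R01 : Type u} [CommRing A] [CommRing R0] [CommRing R1] [CommRing R01]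
  [Algebra A R0] [Algebra A R1] [Algebra A R01] [Algebra R0 R01] [Algebra R1 R01]
  [IsScalarTower A R0 R01] [IsScalarTower A R1 R01]

/-- The structure sheaf has only constant global sections. -/
def H0Const (A R0 R1 R01 : Type u) [CommRing A] [CommRing R0] [CommRing R1] [CommRing R01]
    [Algebra A R0] [Algebra A R1] [Algebra R0 R01] [Algebra R1 R01] : Prop :=
  ∀ (x0 : R0) (x1 : R1), algebraMap R0 R01 x0 = algebraMap R1 R01 x1 →
    ∃ a : A, x0 = algebraMap A R0 a ∧ x1 = algebraMap A R1 a

/-- If `H⁰(O) = A` with `A` local with maximal ideal `(π)`, a compatible pair `(f0, f1)` of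
functions on the charts which are units modulo `π` consists of units. -/
theorem isUnit_pair_of_h0Const [IsLocalRing A] (π : A)
    (hπ : IsLocalRing.maximalIdeal A = Ideal.span {π}) (hH0 : H0Const A R0 R1 R01)
    (f0 : R0) (f1 : R1) (hf : algebraMap R0 R01 f0 = algebraMap R1 R01 f1)
    (h0 : ∃ r g : R0, r * f0 + g * algebraMap A R0 π = 1)
    (h1 : ∃ r g : R1, r * f1 + g * algebraMap A R1 π = 1) : IsUnit f0 ∧ IsUnit f1 := by
  obtain ⟨a, ha0, ha1⟩ := hH0 f0 f1 hf
  obtain ⟨r0, g0, h0⟩ := h0
  obtain ⟨r1, g1, h1⟩ := h1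
  by_cases hau : IsUnit a
  · exact ⟨ha0 ▸ hau.map _, ha1 ▸ hau.map _⟩
  · have hmem : a ∈ IsLocalRing.maximalIdeal A := (IsLocalRing.mem_maximalIdeal a).2 hau
    rw [hπ, Ideal.mem_span_singleton'] at hmem
    obtain ⟨a', rfl⟩ := hmem
    have hu0 : (r0 * algebraMap A R0 a' + g0) * algebraMap A R0 π = 1 := by
      rw [← h0, ha0, map_mul]; ring
    have hu1 : (r1 * algebraMap A R1 a' + g1) * algebraMap A R1 π = 1 := by
      rw [← h1, ha1, map_mul]; ring
    have e0 : algebraMap R0 R01 (r0 * algebraMap A R0 a' + g0) * algebraMap A R01 π = 1 := by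
      rw [IsScalarTower.algebraMap_apply A R0 R01, ← map_mul, hu0, map_one]
    have e1 : algebraMap R1 R01 (r1 * algebraMap A R1 a' + g1) * algebraMap A R01 π = 1 := by
      rw [IsScalarTower.algebraMap_apply A R1 R01, ← map_mul, hu1, map_one]
    have h01 : algebraMap R0 R01 (r0 * algebraMap A R0 a' + g0) =
        algebraMap R1 R01 (r1 * algebraMap A R1 a' + g1) := by
      calc algebraMap R0 R01 (r0 * algebraMap A R0 a' + g0)
          = algebraMap R0 R01 (r0 * algebraMap A R0 a' + g0) *
              (algebraMap R1 R01 (r1 * algebraMap A R1 a' + g1) * algebraMap A R01 π) := by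
            rw [e1, mul_one]
        _ = (algebraMap R0 R01 (r0 * algebraMap A R0 a' + g0) * algebraMap A R01 π) *
              algebraMap R1 R01 (r1 * algebraMap A R1 a' + g1) := by ring
        _ = algebraMap R1 R01 (r1 * algebraMap A R1 a' + g1) := by rw [e0, one_mul]
    obtain ⟨b, hb0, hb1⟩ := hH0 _ _ h01
    have hπm : π ∈ IsLocalRing.maximalIdeal A := by
      rw [hπ]; exact Ideal.mem_span_singleton_self π
    have hbu : IsUnit (1 - b * π) := by
      by_contra hnu
      have h1m : (1 - b * π) ∈ IsLocalRing.maximalIdeal A := (IsLocalRing.mem_maximalIdeal _).2 hnu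
      have : (1 : A) ∈ IsLocalRing.maximalIdeal A := by
        have h := Ideal.add_mem _ h1m (Ideal.mul_mem_left _ b hπm)
        rwa [sub_add_cancel] at h
      exact (Ideal.ne_top_iff_one _).1 (IsLocalRing.maximalIdeal.isMaximal A).ne_top this
    have hz0 : algebraMap A R0 (1 - b * π) = 0 := by
      rw [map_sub, map_mul, ← hb0, hu0, map_one, sub_self]
    have hz1 : algebraMap A R1 (1 - b * π) = 0 := by
      rw [map_sub, map_mul, ← hb1, hu1, map_one, sub_self]
    have hs0 : Subsingleton R0 := by
      have := hbu.map (algebraMap A R0)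
      rw [hz0] at this
      exact subsingleton_of_zero_eq_one (isUnit_zero_iff.1 this)
    have hs1 : Subsingleton R1 := by
      have := hbu.map (algebraMap A R1)
      rw [hz1] at this
      exact subsingleton_of_zero_eq_one (isUnit_zero_iff.1 this)
    exact ⟨isUnit_of_subsingleton _, isUnit_of_subsingleton _⟩

/-- **The pairing argument.**  Let `A` be local with maximal ideal `(π)`, `H⁰(O) = A`, and `M` a
line over the two-chart ring.  If `M` has a global section `σ` and `M^∨` a global section `τ`
which both generate modulo `π` on both charts, then `M` is trivial. -/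
theorem nonempty_iso_unit [IsLocalRing A] (c : TwoChart A R0 R1 R01) (π : A)
    (hπ : IsLocalRing.maximalIdeal A = Ideal.span {π}) (hH0 : H0Const A R0 R1 R01)
    (M : QC2 A R0 R1 R01) (hM : M.IsLine)
    (σ0 : M.N0) (σ1 : M.N1) (hσ : M.r0 σ0 = M.r1 σ1)
    (τ0 : Module.Dual R0 M.N0) (τ1 : Module.Dual R1 M.N1)
    (hτ : (dual c M (isVB_of_isLine hM)).r0 τ0 = (dual c M (isVB_of_isLine hM)).r1 τ1)
    (g0 : GenMod (algebraMap A R0 π) σ0) (g1 : GenMod (algebraMap A R1 π) σ1)
    (g0' : GenMod (algebraMap A R0 π) τ0) (g1' : GenMod (algebraMap A R1 π) τ1) :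
    Nonempty (QC2.Iso M QC2.unit) := by
  haveI := hM.inv0
  haveI := hM.inv1
  haveI inv01 : Module.Invertible R01 M.N01 := Module.Invertible.congr M.bc0.equiv
  have hV := isVB_of_isLine hM
  let τ01 : Module.Dual R01 M.N01 := (dual c M hV).r0 τ0
  have hτ01 : τ01 = (dual c M hV).r1 τ1 := hτ
  have c0 : ∀ x : M.N0, τ01 (M.r0 x) = algebraMap R0 R01 (τ0 x) := fun x =>
    dual_r0_apply c M hV τ0 x
  have c1 : ∀ x : M.N1, τ01 (M.r1 x) = algebraMap R1 R01 (τ1 x) := fun x => by
    rw [hτ01]; exact dual_r1_apply c M hV τ1 x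
  have hf : algebraMap R0 R01 (τ0 σ0) = algebraMap R1 R01 (τ1 σ1) := by
    rw [← c0, ← c1, hσ]
  obtain ⟨hu0, hu1⟩ := isUnit_pair_of_h0Const π hπ hH0 (τ0 σ0) (τ1 σ1) hf
    (exists_mul_add_eq_one _ σ0 τ0 g0 g0') (exists_mul_add_eq_one _ σ1 τ1 g1 g1')
  have s0 : Function.Surjective τ0 := fun r => by
    obtain ⟨v, hv⟩ := hu0.exists_right_inv
    exact ⟨(r * v) • σ0, by rw [map_smul, smul_eq_mul, mul_assoc, mul_comm v, hv, mul_one]⟩
  have s1 : Function.Surjective τ1 := fun r => by
    obtain ⟨v, hv⟩ := hu1.exists_right_inv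
    exact ⟨(r * v) • σ1, by rw [map_smul, smul_eq_mul, mul_assoc, mul_comm v, hv, mul_one]⟩
  have s01 : Function.Surjective τ01 := fun r => by
    obtain ⟨v, hv⟩ := (hu0.map (algebraMap R0 R01)).exists_right_inv
    exact ⟨(r * v) • M.r0 σ0, by
      rw [map_smul, c0, smul_eq_mul, mul_assoc, mul_comm v, hv, mul_one]⟩
  exact ⟨{ e0 := LinearEquiv.ofBijective τ0 (Module.Invertible.bijective_of_surjective s0)
           e1 := LinearEquiv.ofBijective τ1 (Module.Invertible.bijective_of_surjective s1)
           e01 := LinearEquiv.ofBijective τ01 (Module.Invertible.bijective_of_surjective s01)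
           comm0 := c0
           comm1 := c1 }⟩

end Pairing

end Fermat.Agent.T1.CoordInj23
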