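/-
Programme T1A (S19), brick R-e COORD-INJ (helper23), part 2: from "the base change of `L` along a
surjection of two-chart rings with principal kernels `(a)` is trivial" to an explicit section of `L`
modulo `a` which generates modulo `a` on both charts.
-/
import Mathlib
import Fermat.Agent.Jac.Core
import Fermat.Agent.Jac.JSmooth85Alg
import Fermat.Agent.T1.CoordInj23.Core

set_option autoImplicit false
set_option linter.unusedSectionVars false
set_option linter.style.haveILetI false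

universe u

open TensorProduct

namespace Fermat.Agent.T1.CoordInj23

open Fermat.Agent.Jac Fermat.Agent.Jac.JSmooth85Alg

section Ker

variable {R R' N : Type*} [CommRing R] [CommRing R'] [Algebra R R'] [AddCommGroup N] [Module R N]

/-- For a surjective `R → R'` with kernel `I`, the kernel of `N → R' ⊗[R] N` is `I • N`. -/
theorem mem_ker_smul_top_of_one_tmul_eq_zero (hs : Function.Surjective (algebraMap R R')) (n : N)
    (h : (1 : R') ⊗ₜ[R] n = 0) :
    n ∈ (RingHom.ker (algebraMap R R')) • (⊤ : Submodule R N) := by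
  let f : R →ₐ[R] R' := Algebra.ofId R R'
  have hf : Function.Surjective f := hs
  let e : (R ⧸ RingHom.ker f) ≃ₐ[R] R' := Ideal.quotientKerAlgEquivOfSurjective hf
  let E : (R ⧸ RingHom.ker f) ⊗[R] N ≃ₗ[R] R' ⊗[R] N :=
    TensorProduct.congr e.toLinearEquiv (LinearEquiv.refl R N)
  have h1 : E (1 ⊗ₜ n) = 1 ⊗ₜ n := by simp [E]
  have h2 : ((1 : R ⧸ RingHom.ker f) ⊗ₜ[R] n) = 0 := E.injective (by rw [h1, h, map_zero])
  have h3 := congrArg (TensorProduct.quotTensorEquivQuotSMul N (RingHom.ker f)) h2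
  rw [TensorProduct.quotTensorEquivQuotSMul_mk_one_tmul, map_zero,
    Submodule.Quotient.mk_eq_zero] at h3
  exact h3

/-- Principal-kernel form of `mem_ker_smul_top_of_one_tmul_eq_zero`. -/
theorem exists_smul_of_one_tmul_eq_zero (hs : Function.Surjective (algebraMap R R')) (p : R)
    (hk : RingHom.ker (algebraMap R R') = Ideal.span {p}) (n : N)
    (h : (1 : R') ⊗ₜ[R] n = 0) : ∃ z : N, n = p • z := by
  have h1 := mem_ker_smul_top_of_one_tmul_eq_zero hs n h
  rw [hk, Submodule.ideal_span_singleton_smul] at h1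
  obtain ⟨z, -, hz⟩ := (Submodule.mem_smul_pointwise_iff_exists _ _ _).1 h1
  exact ⟨z, hz.symm⟩

end Ker

section Cube

variable {A R0 R1 R01 A' R0' R1' R01' : Type u}
  [CommRing A] [CommRing R0] [CommRing R1] [CommRing R01]
  [Algebra A R0] [Algebra A R1] [Algebra A R01] [Algebra R0 R01] [Algebra R1 R01]
  [IsScalarTower A R0 R01] [IsScalarTower A R1 R01]
  [CommRing A'] [CommRing R0'] [CommRing R1'] [CommRing R01']
  [Algebra A' R0'] [Algebra A' R1'] [Algebra A' R01'] [Algebra R0' R01'] [Algebra R1' R01']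
  [IsScalarTower A' R0' R01'] [IsScalarTower A' R1' R01']
  [Algebra R0 R0'] [Algebra R1 R1'] [Algebra R01 R01']

/-- If the base change of `L` along a cube of surjections with principal kernels `(a)` is the
structure sheaf, then `L` has a section modulo `a` which generates modulo `a` on both charts. -/
theorem exists_genMod_of_liftData_unit {L : QC2 A R0 R1 R01}
    (h : LiftData L (QC2.unit : QC2 A' R0' R1' R01')) (a : A)
    (hs0 : Function.Surjective (algebraMap R0 R0'))
    (hs1 : Function.Surjective (algebraMap R1 R1'))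
    (hs01 : Function.Surjective (algebraMap R01 R01'))
    (hk0 : RingHom.ker (algebraMap R0 R0') = Ideal.span {algebraMap A R0 a})
    (hk1 : RingHom.ker (algebraMap R1 R1') = Ideal.span {algebraMap A R1 a})
    (hk01 : RingHom.ker (algebraMap R01 R01') = Ideal.span {algebraMap A R01 a}) :
    ∃ (e0 : L.N0) (e1 : L.N1) (z : L.N01), L.r0 e0 - L.r1 e1 = a • z ∧
      GenMod (algebraMap A R0 a) e0 ∧ GenMod (algebraMap A R1 a) e1 := by
  obtain ⟨E0, E1, E01, hc0, hc1⟩ : ∃ (E0 : R0' ⊗[R0] L.N0 ≃ₗ[R0'] R0')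
      (E1 : R1' ⊗[R1] L.N1 ≃ₗ[R1'] R1') (E01 : R01' ⊗[R01] L.N01 ≃ₗ[R01'] R01'),
      (∀ x, E01 ((1 : R01') ⊗ₜ[R01] L.r0 x) = algebraMap R0' R01' (E0 ((1 : R0') ⊗ₜ[R0] x))) ∧
      (∀ x, E01 ((1 : R01') ⊗ₜ[R01] L.r1 x) = algebraMap R1' R01' (E1 ((1 : R1') ⊗ₜ[R1] x))) :=
    ⟨h.e0, h.e1, h.e01, h.comm0, h.comm1⟩
  obtain ⟨e0, he0⟩ := TensorProduct.mk_surjective R0 L.N0 R0' hs0 (E0.symm 1)
  obtain ⟨e1, he1⟩ := TensorProduct.mk_surjective R1 L.N1 R1' hs1 (E1.symm 1)
  have h0 : E0 ((1 : R0') ⊗ₜ[R0] e0) = 1 := by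
    have := congrArg E0 he0
    rwa [LinearEquiv.apply_symm_apply] at this
  have h1 : E1 ((1 : R1') ⊗ₜ[R1] e1) = 1 := by
    have := congrArg E1 he1
    rwa [LinearEquiv.apply_symm_apply] at this
  have hz : (1 : R01') ⊗ₜ[R01] (L.r0 e0 - L.r1 e1) = 0 := by
    apply E01.injective
    rw [map_zero, TensorProduct.tmul_sub, map_sub, hc0, hc1, h0, h1, map_one, map_one, sub_self]
  obtain ⟨z, hz'⟩ := exists_smul_of_one_tmul_eq_zero hs01 _ hk01 _ hz
  refine ⟨e0, e1, z, by rw [hz', algebraMap_smul], ?_, ?_⟩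
  · intro m
    obtain ⟨r, hr⟩ := hs0 (E0 ((1 : R0') ⊗ₜ[R0] m))
    have hm : (1 : R0') ⊗ₜ[R0] (m - r • e0) = 0 := by
      apply E0.injective
      have e : (1 : R0') ⊗ₜ[R0] (r • e0) = algebraMap R0 R0' r • ((1 : R0') ⊗ₜ[R0] e0) := by
        rw [TensorProduct.tmul_smul, algebraMap_smul]
      rw [map_zero, TensorProduct.tmul_sub, map_sub, e, map_smul, h0, ← hr, smul_eq_mul, mul_one,
        sub_self]
    obtain ⟨m', hm'⟩ := exists_smul_of_one_tmul_eq_zero hs0 _ hk0 _ hm
    exact ⟨r, m', by rw [← hm']; abel⟩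
  · intro m
    obtain ⟨r, hr⟩ := hs1 (E1 ((1 : R1') ⊗ₜ[R1] m))
    have hm : (1 : R1') ⊗ₜ[R1] (m - r • e1) = 0 := by
      apply E1.injective
      have e : (1 : R1') ⊗ₜ[R1] (r • e1) = algebraMap R1 R1' r • ((1 : R1') ⊗ₜ[R1] e1) := by
        rw [TensorProduct.tmul_smul, algebraMap_smul]
      rw [map_zero, TensorProduct.tmul_sub, map_sub, e, map_smul, h1, ← hr, smul_eq_mul, mul_one,
        sub_self]
    obtain ⟨m', hm'⟩ := exists_smul_of_one_tmul_eq_zero hs1 _ hk1 _ hm
    exact ⟨r, m', by rw [← hm']; abel⟩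

end Cube

end Fermat.Agent.T1.CoordInj23
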