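/-
Programme T1A (S19), brick R-e COORD-INJ (helper23), part 3: `RedIface75.CoordInjective`.

`W` base ring, `c0 : TwoChart W B0 B1 B01` finite projective over the line, `O` a discrete
valuation ring over `W` such that the structure sheaf of `X_O` has only constant global sections.
Then a class in `Pic X_O` which becomes trivial on `X_{O/𝔪^n}` for every `n` is trivial.

Proof (no completion, no lengths): let `M` be a line on `X_O` and `π` a uniformiser.  `H¹(M)` is a
finitely generated `O`-module, so its `π`-power torsion is killed by `π ^ C`.  The trivialisation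
of `M` modulo `π ^ (C + 1)` gives a pair `e = (e0, e1)` with `d e = π ^ (C + 1) z`; then
`π ^ (C + 1) [z] = 0` in `H¹(M)`, hence `π ^ C z = d w` and `σ := e - π w` is a global section of
`M`, congruent to `e` modulo `π`, so it generates `M / π` on both charts.  The same for the dual
line gives `τ`.  The function `τ(σ)` is a global section of the structure sheaf, i.e. a constant
of `O`, and a unit modulo `π`: it is a unit, and `τ : M → O_X` is an isomorphism.
-/
import Mathlib
import Fermat.Agent.T1.RedIface75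
import Fermat.Agent.T1.Coh60.Coh
import Fermat.Agent.Jac.LineOps39.OverLine
import Fermat.Agent.T1.CoordInj23.Core
import Fermat.Agent.T1.CoordInj23.Trans

set_option autoImplicit false
set_option linter.unusedSectionVars false
set_option linter.style.haveILetI false

universe u

open TensorProduct

namespace Fermat.Agent.T1.CoordInj23

open Fermat.Agent.Jac Fermat.Agent.Jac.JSmooth85Alg Fermat.Agent.Jac.JGroup85Pic
open Fermat.Agent.Jac.BaseChange75 Fermat.Agent.Jac.LineOps39 Fermat.Agent.T1.RedIface75
open scoped Fermat.Agent.Jac.BaseChange75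

section TensorQuot

variable {W B : Type u} [CommRing W] [CommRing B] [Algebra W B]
  (O : Type u) [CommRing O] [Algebra W O] (I : Ideal O)

/-- `O ⊗ B → (O ⧸ I) ⊗ B` is surjective. -/
theorem algebraMap_left_quot_surjective :
    Function.Surjective (algebraMap (O ⊗[W] B) ((O ⧸ I) ⊗[W] B)) := by
  rw [algebraMap_left_eq]
  exact Algebra.TensorProduct.map_surjective (IsScalarTower.toAlgHom O O (O ⧸ I))
    (AlgHom.id W B) Ideal.Quotient.mk_surjective Function.surjective_id

/-- The kernel of `O ⊗ B → (O ⧸ (a)) ⊗ B` is generated by `a`. -/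
theorem ker_algebraMap_left_quot (a : O) (hI : I = Ideal.span {a}) :
    RingHom.ker (algebraMap (O ⊗[W] B) ((O ⧸ I) ⊗[W] B)) =
      Ideal.span {algebraMap O (O ⊗[W] B) a} := by
  subst hI
  have h1 := Algebra.TensorProduct.rTensor_ker (R := W) (C := B)
    (IsScalarTower.toAlgHom O O (O ⧸ Ideal.span {a})) Ideal.Quotient.mk_surjective
  have h2 : RingHom.ker (IsScalarTower.toAlgHom O O (O ⧸ Ideal.span {a})) = Ideal.span {a} := by
    ext x
    rw [RingHom.mem_ker]
    exact Ideal.Quotient.eq_zero_iff_mem
  rw [h2, Ideal.map_span, Set.image_singleton] at h1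
  have h4 : RingHom.ker (algebraMap (O ⊗[W] B) ((O ⧸ Ideal.span {a}) ⊗[W] B)) =
      RingHom.ker (Algebra.TensorProduct.map (IsScalarTower.toAlgHom O O (O ⧸ Ideal.span {a}))
        (AlgHom.id W B)) := by
    ext x
    exact Iff.rfl
  rw [h4]
  exact h1

end TensorQuot

section Main

variable {W B0 B1 B01 : Type u} [CommRing W] [CommRing B0] [CommRing B1] [CommRing B01]
  [Algebra W B0] [Algebra W B1] [Algebra W B01] [Algebra B0 B01] [Algebra B1 B01]
  [IsScalarTower W B0 B01] [IsScalarTower W B1 B01]
  (c0 : TwoChart W B0 B1 B01)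
  (O : Type u) [CommRing O] [IsDomain O] [IsDiscreteValuationRing O] [Algebra W O]

/-- A line on `X_O` which is trivial modulo every power of the maximal ideal has a global section
generating it modulo a uniformiser on both charts. -/
theorem exists_genSection (hfp : c0.FiniteProjOverLine) (π : O) (hπ : Irreducible π)
    (M : QC2 O (O ⊗[W] B0) (O ⊗[W] B1) (O ⊗[W] B01)) (hM : M.IsLine)
    (hy : ∀ n : ℕ, PicX.map c0 O (Trunc O n) (LinePic.mk (c0.baseChange O) M hM) = 1) :
    ∃ (σ0 : M.N0) (σ1 : M.N1), M.r0 σ0 = M.r1 σ1 ∧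
      GenMod (algebraMap O (O ⊗[W] B0) π) σ0 ∧ GenMod (algebraMap O (O ⊗[W] B1) π) σ1 := by
  have hfpO := hfp.baseChange O
  haveI : Module.Finite O M.H1 :=
    Coh60.finite_H1 (c0.baseChange O) M (finiteOverLine_of_isLine _ hfpO hM)
  haveI : IsNoetherian O M.H1 := isNoetherian_of_isNoetherianRing_of_finite O M.H1
  obtain ⟨C, hC⟩ := exists_bound_torsion (N := M.H1) π
  have hI : (IsLocalRing.maximalIdeal O) ^ (C + 1) = Ideal.span {π ^ (C + 1)} := by
    rw [hπ.maximalIdeal_eq, Ideal.span_singleton_pow]
  obtain ⟨h⟩ := LinePic.nonempty_liftData_of_bc_eq _ _ (c0.baseChange O)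
    (c0.baseChange (Trunc O (C + 1))) hM isLine_unit (hy (C + 1))
  obtain ⟨e0, e1, z, hz, g0, g1⟩ := exists_genMod_of_liftData_unit h (π ^ (C + 1))
    (algebraMap_left_quot_surjective O _) (algebraMap_left_quot_surjective O _)
    (algebraMap_left_quot_surjective O _) (ker_algebraMap_left_quot O _ _ hI)
    (ker_algebraMap_left_quot O _ _ hI) (ker_algebraMap_left_quot O _ _ hI)
  obtain ⟨w0, w1, hw⟩ := exists_section_congr M π C hC e0 e1 z hz
  refine ⟨e0 - π • w0, e1 - π • w1, hw, ?_, ?_⟩
  · rw [map_pow] at g0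
    have := (GenMod.of_pow_succ C g0).sub_smul w0
    rwa [algebraMap_smul] at this
  · rw [map_pow] at g1
    have := (GenMod.of_pow_succ C g1).sub_smul w1
    rwa [algebraMap_smul] at this

/-- **Brick R-e (COORD-INJ)**: `RedIface75.CoordInjective`.  Hypotheses: the two-chart ring is
finite projective over the line, and the structure sheaf of `X_O` has only constant global
sections. -/
theorem coordInjective (hfp : c0.FiniteProjOverLine)
    (hH0 : H0Const O (O ⊗[W] B0) (O ⊗[W] B1) (O ⊗[W] B01)) : CoordInjective c0 O := by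
  intro y hy
  obtain ⟨M, hM, rfl⟩ := LinePic.exists_rep y
  obtain ⟨π, hπ⟩ := IsDiscreteValuationRing.exists_irreducible O
  obtain ⟨σ0, σ1, hσ, g0, g1⟩ := exists_genSection c0 O hfp π hπ M hM hy
  have hy' : ∀ n : ℕ, PicX.map c0 O (Trunc O n) (LinePic.mk (c0.baseChange O)
      (dual (c0.baseChange O) M (isVB_of_isLine hM)) (isLine_dual _ hM)) = 1 := by
    intro n
    rw [← LinePic.inv_mk hM, map_inv, hy n, inv_one]
  obtain ⟨τ0, τ1, hτ, g0', g1'⟩ := exists_genSection c0 O hfp π hπ _ (isLine_dual _ hM) hy'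
  rw [LinePic.one_def, LinePic.mk_eq_mk_iff]
  exact nonempty_iso_unit (c0.baseChange O) π hπ.maximalIdeal_eq hH0 M hM σ0 σ1 hσ τ0 τ1 hτ
    g0 g1 g0' g1'

end Main

end Fermat.Agent.T1.CoordInj23
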