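/-
Programme T1A (S19), brick R-e COORD-INJ (helper23), part 4: adapter to helper70's `CechData`.

The hypothesis `H0Const O (O ⊗ B0) (O ⊗ B1) (O ⊗ B01)` of `coordInjective` follows, for EVERY
`W`-algebra `O`, from a `W`-level `CechFormal70.CechData` (output of G1 MODEL-COH) whose restriction
maps are the algebra maps of the two-chart ring.
-/
import Mathlib
import Fermat.Agent.T1.CoordInj23.Main
import Fermat.Agent.T1.CechFormal70.BaseChange

set_option autoImplicit false
set_option linter.unusedSectionVars false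

universe u

open TensorProduct

namespace Fermat.Agent.T1.CoordInj23

open Fermat.Agent.Jac Fermat.Agent.Jac.BaseChange75 Fermat.Agent.T1.RedIface75
open Fermat.Agent.T1.CechFormal70
open scoped Fermat.Agent.Jac.BaseChange75

variable {W B0 B1 B01 : Type u} [CommRing W] [CommRing B0] [CommRing B1] [CommRing B01]
  [Algebra W B0] [Algebra W B1] [Algebra W B01] [Algebra B0 B01] [Algebra B1 B01]
  [IsScalarTower W B0 B01] [IsScalarTower W B1 B01] {g : ℕ}

/-- `H⁰(O_{X_R}) = R` for every `W`-algebra `R`, from the `W`-level Čech datum. -/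
theorem h0Const_of_cechData (D : CechData W B0 B1 B01 g)
    (hρ0 : ∀ x, D.ρ0 x = algebraMap B0 B01 x) (hρ1 : ∀ x, D.ρ1 x = algebraMap B1 B01 x)
    (R : Type u) [CommRing R] [Algebra W R] :
    H0Const R (R ⊗[W] B0) (R ⊗[W] B1) (R ⊗[W] B01) := by
  intro x0 x1 h
  have e0 : ∀ x : R ⊗[W] B0, D.r0R R x = algebraMap (R ⊗[W] B0) (R ⊗[W] B01) x := by
    intro x
    induction x using TensorProduct.induction_on with
    | zero => simp
    | tmul r b => rw [CechData.r0R_tmul, hρ0, algebraMap_right_tmul]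
    | add a b ha hb => rw [map_add, map_add, ha, hb]
  have e1 : ∀ x : R ⊗[W] B1, D.r1R R x = algebraMap (R ⊗[W] B1) (R ⊗[W] B01) x := by
    intro x
    induction x using TensorProduct.induction_on with
    | zero => simp
    | tmul r b => rw [CechData.r1R_tmul, hρ1, algebraMap_right_tmul]
    | add a b ha hb => rw [map_add, map_add, ha, hb]
  have hmem : D.r0R R x0 - D.r1R R x1 ∈ eI (⊥ : Ideal R) (R ⊗[W] B01) := by
    rw [e0, e1, h, sub_self]
    exact Ideal.zero_mem _
  obtain ⟨r, h0, h1⟩ := D.pkg_h0 R ⊥ x0 x1 hmem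
  have b0 : eI (⊥ : Ideal R) (R ⊗[W] B0) = ⊥ := Ideal.map_bot
  have b1 : eI (⊥ : Ideal R) (R ⊗[W] B1) = ⊥ := Ideal.map_bot
  rw [b0, Ideal.mem_bot, sub_eq_zero] at h0
  rw [b1, Ideal.mem_bot, sub_eq_zero] at h1
  exact ⟨r, h0, h1⟩

/-- **Brick R-e (COORD-INJ)**, in terms of the outputs of G1 MODEL-COH: finite projectivity over
the line and the `W`-level Čech datum. -/
theorem coordInjective_of_cechData (c0 : TwoChart W B0 B1 B01) (hfp : c0.FiniteProjOverLine)
    (D : CechData W B0 B1 B01 g)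
    (hρ0 : ∀ x, D.ρ0 x = algebraMap B0 B01 x) (hρ1 : ∀ x, D.ρ1 x = algebraMap B1 B01 x)
    (O : Type u) [CommRing O] [IsDomain O] [IsDiscreteValuationRing O] [Algebra W O] :
    CoordInjective c0 O :=
  coordInjective c0 O hfp (h0Const_of_cechData D hρ0 hρ1 O)

end Fermat.Agent.T1.CoordInj23
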